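import Fermat.Agent.S29.Core
import Fermat.Agent.S13.Groups
import Fermat.Prelude.Def_FreyPackage_EigenformResidualAttachment

/-!
# S42: auxiliary lemmas (trace and determinant from the characteristic polynomial, a common
Galois number field of definition)
-/

set_option autoImplicit false

open Polynomial

namespace Fermat.Agent.S42

open Fermat.Agent.S29

theorem trace_det_of_charpoly {K V : Type*} [Field K] [AddCommGroup V] [Module K V]
    [Module.Finite K V]
    (h2 : Module.finrank K V = 2) (f : Module.End K V) (t d : K)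
    (h : f.charpoly = X ^ 2 - C t * X + C d) :
    LinearMap.trace K V f = t ∧ LinearMap.det f = d := by
  constructor
  · let b := Module.finBasis K V
    have hne : Nonempty (Fin (Module.finrank K V)) := by rw [h2]; exact ⟨0⟩
    rw [LinearMap.trace_eq_matrix_trace K b, Matrix.trace_eq_neg_charpoly_coeff,
      LinearMap.charpoly_toMatrix, h, Fintype.card_fin, h2]
    simp [coeff_C]
  · rw [LinearMap.det_eq_sign_charpoly_coeff, h2, h]
    simp

/-- two finite levels are contained in a finite Galois level. -/
theorem exists_galois_level (L₁ L₂ : IntermediateField ℚ (AlgebraicClosure ℚ))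
    [FiniteDimensional ℚ L₁] [FiniteDimensional ℚ L₂] :
    ∃ L : IntermediateField ℚ (AlgebraicClosure ℚ), FiniteDimensional ℚ L ∧ IsGalois ℚ L ∧
      L₁ ≤ L ∧ L₂ ≤ L := by
  haveI : Normal ℚ (AlgebraicClosure ℚ) := Fermat.Agent.S54.isGalois_Lb.to_normal
  let L0 : IntermediateField ℚ (AlgebraicClosure ℚ) := L₁ ⊔ L₂
  haveI : FiniteDimensional ℚ L0 := IntermediateField.finiteDimensional_sup L₁ L₂
  let L : IntermediateField ℚ (AlgebraicClosure ℚ) := IntermediateField.normalClosure ℚ L0 (AlgebraicClosure ℚ)
  have hle : L0 ≤ L := IntermediateField.le_normalClosure L0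
  haveI hn : Normal ℚ L := normalClosure.normal ℚ L0 (AlgebraicClosure ℚ)
  refine ⟨L, normalClosure.is_finiteDimensional ℚ L0 (AlgebraicClosure ℚ), ?_,
    le_trans le_sup_left hle, le_trans le_sup_right hle⟩
  exact { to_isSeparable := inferInstance, to_normal := hn }

open WeierstrassCurve WeierstrassCurve.Affine.Point in
open Classical in
/-- the `p`-torsion of the Frey curve is defined over a number field. -/
theorem frey_level (P : FreyPackage) :
    ∃ L : IntermediateField ℚ (AlgebraicClosure ℚ), FiniteDimensional ℚ L ∧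
      ∀ σ : GQ, (∀ x ∈ L, σ x = x) →
        galoisRepModuleEnd (S := ℚ) (K := AlgebraicClosure ℚ) P.freyCurve P.p σ = 1 := by
  obtain ⟨L, hL, h⟩ := Fermat.Agent.S13.exists_finite_field P
  refine ⟨L, hL, fun σ hσ => LinearMap.ext fun x => ?_⟩
  exact h σ ((IntermediateField.mem_fixingSubgroup_iff L σ).2 hσ) x

end Fermat.Agent.S42
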